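import Fermat.Agent.LT.A2.WeilLocal
import Fermat.Agent.LT.T1.H629.FujisakiMinkowski
import Fermat.Agent.LT.H767.AdeleCocompact

/-!
# Row LT, tower A2, station A2.03.1.1 `DataC` -- ASSET `LocNontriv` (helper352)

OFF-MAIN.  **The local components of a nontrivial character of `𝔸_K / K` are nontrivial**, at
EVERY place of the number field `K` (no hypothesis on `K`, unconditional):

* `locNontriv_fin352 : IsAdeleChar ψ → ∀ v, ∃ x, WL.AdlAtFin v x ∧ ψ x ≠ 1`
* `locNontriv_inf352 : IsAdeleChar ψ → ∀ u, ∃ x, WL.AdlAtInf u x ∧ ψ x ≠ 1`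

Consumers: `WX467.LocBadC` / `LocBadOfRepC` (the hypothesis `IsCharL ψ_v` of `LocRepC` at the bad
places: `FinAt.psi` forces `ψ_v` to be the component of `ψ`), `WX467.LocCpxC` (`c ≠ 0` in
`CpxAt.gauss`), `WX467.AsmC`.

Proof = strong approximation for the additive group, in the form that is needed
(`core352`): let `ψ` be trivial on `K` and on the adeles supported at the place `v₀`.
A neighbourhood of `0` on which `‖ψ - 1‖ < 1` contains a box `{‖z_w‖ < ε, z_f ∈ N ∏ 𝒪_v}`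
(`exists_box352`; tube lemma for the compact `∏ 𝒪_v`, and the integers `P ^ n → 0` in every
neighbourhood of `0` of the finite adeles).  By Minkowski's theorem (helper629
`exists_minkowski629`, from Mathlib) there is `λ ∈ K^×` which is smaller than `ε / (B + 1)` at
all infinite places and divisible by `N` at all finite places, EXCEPT at `v₀`
(`exists_small_inf352`; `exists_small_fin352`: `λ = N a / π ^ M`, `(π) = v₀ ^ h`, `h` the class
number).  Since `𝔸_K = K + adeleBox K` (helper767 `exists_sub_mem_adeleBox`), every adele is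
`x = λ η + z + z₀` with `η ∈ K`, `z` in the box and `z₀` supported at `v₀`, so `‖ψ x - 1‖ < 1`
for ALL `x`; a subgroup of the unit circle inside `{‖z - 1‖ < 1}` is trivial
(`eq_one_of_pow_near352`).

Imports: Mathlib, `LT/A2/WeilLocal.lean` (vocabulary), and two files of the CLOSED tower T1
(`LT/T1/H629/FujisakiMinkowski.lean`, `LT/H767/AdeleCocompact.lean`), byte-identical.
-/

set_option autoImplicit false

open IsDedekindDomain NumberField HeightOneSpectrum
open scoped Topology nonZeroDivisors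

noncomputable section

namespace Fermat.Agent.LT.A2.H352

open Fermat.Agent.LT.H556 Fermat.Agent.LT.H767 Fermat.Agent.LT.A2

/-! ## 1. Subgroups of the circle -/

theorem re_of_near352 (w : ℂ) (hw : ‖w‖ = 1) (h : ‖w - 1‖ < 1) : 1 / 2 < w.re := by
  have h1 : ‖w - 1‖ ^ 2 < 1 := by
    have := norm_nonneg (w - 1)
    nlinarith
  have h2 : ‖w‖ ^ 2 = 1 := by rw [hw]; norm_num
  rw [Complex.sq_norm, Complex.normSq_apply] at h1 h2
  simp only [Complex.sub_re, Complex.one_re, Complex.sub_im, Complex.one_im, sub_zero] at h1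
  nlinarith

theorem eq_one_of_pow_near352 (z : ℂ) (hz : ‖z‖ = 1) (h : ∀ k : ℕ, ‖z ^ k - 1‖ < 1) : z = 1 := by
  have hnorm : ∀ k : ℕ, ‖z ^ k‖ = 1 := fun k => by rw [norm_pow, hz, one_pow]
  have hre : ∀ k : ℕ, 1 / 2 < (z ^ k).re := fun k => re_of_near352 _ (hnorm k) (h k)
  have key : ∀ j : ℕ, (3 : ℝ) ^ j * (1 - z.re) ≤ 1 - (z ^ (2 ^ j)).re := by
    intro j
    induction j with
    | zero => simp
    | succ j ih =>
      set w := z ^ (2 ^ j) with hw
      have e : z ^ (2 ^ (j + 1)) = w * w := by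
        rw [hw, ← pow_add]; congr 1; ring
      have hw1 : ‖w‖ ^ 2 = 1 := by rw [hnorm]; norm_num
      rw [Complex.sq_norm, Complex.normSq_apply] at hw1
      have hwre := hre (2 ^ j)
      rw [← hw] at hwre
      rw [e, Complex.mul_re, pow_succ]
      have hle : w.re ≤ 1 := by nlinarith [sq_nonneg w.im]
      nlinarith
  have hz1 : 1 ≤ z.re := by
    by_contra hlt
    have hlt := not_le.mp hlt
    have hpos : 0 < 1 - z.re := by linarith
    obtain ⟨j, hj⟩ := pow_unbounded_of_one_lt (1 / (1 - z.re)) (by norm_num : (1 : ℝ) < 3)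
    have h1 := key j
    have h2 := hre (2 ^ j)
    have h3 : 1 < (3 : ℝ) ^ j * (1 - z.re) := by
      rw [div_lt_iff₀ hpos] at hj
      exact hj
    linarith
  have h2 : ‖z‖ ^ 2 = 1 := by rw [hz]; norm_num
  rw [Complex.sq_norm, Complex.normSq_apply] at h2
  have him : z.im = 0 := by
    have : z.im * z.im ≤ 0 := by nlinarith
    have h0 : z.im * z.im = 0 := le_antisymm this (mul_self_nonneg _)
    exact mul_self_eq_zero.mp h0
  have hre1 : z.re = 1 := by nlinarith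
  apply Complex.ext <;> simp [hre1, him]

/-! ## 2. Boxes in the adele ring -/

variable (K : Type) [Field K] [NumberField K]

theorem norm_natCast_lt_one352 (v : HeightOneSpectrum (𝓞 K)) (m : ℕ)
    (hm : ((m : ℕ) : 𝓞 K) ∈ v.asIdeal) : ‖((m : ℕ) : v.adicCompletion K)‖ < 1 := by
  have h := (FinitePlace.norm_lt_one_iff_mem K v ((m : ℕ) : 𝓞 K)).2 hm
  simpa using h

/-- The finite adeles as a restricted product (the definition of Mathlib, unfolded). -/
abbrev RP352 : Type :=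
  RestrictedProduct (fun v : HeightOneSpectrum (𝓞 K) => v.adicCompletion K)
    (fun v => ((v.adicCompletionIntegers K : ValuationSubring (v.adicCompletion K)) :
      Set (v.adicCompletion K))) Filter.cofinite

theorem exists_nat_mem_nhds_aux352 (u : Set (RP352 K)) (hu : u ∈ 𝓝 (0 : RP352 K)) :
    ∃ N : ℕ, 0 < N ∧ ((N : ℕ) : RP352 K) ∈ u := by
  classical
  have hopen : ∀ v : HeightOneSpectrum (𝓞 K),
      IsOpen ((v.adicCompletionIntegers K : Set (v.adicCompletion K))) :=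
    fun v => Valued.isOpen_valuationSubring _
  have h0 := RestrictedProduct.nhds_zero_eq_map_structureMap
    (R := fun v : HeightOneSpectrum (𝓞 K) => v.adicCompletion K)
    (B := fun v => v.adicCompletionIntegers K) hopen
  have hu' : u ∈ 𝓝 (RestrictedProduct.structureMap
      (fun v : HeightOneSpectrum (𝓞 K) => v.adicCompletion K)
      (fun v => ((v.adicCompletionIntegers K : ValuationSubring (v.adicCompletion K)) :
        Set (v.adicCompletion K))) Filter.cofinite 0) := hu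
  rw [h0, Filter.mem_map, nhds_pi, Filter.mem_pi] at hu'
  obtain ⟨I, hI, t, ht, hsub⟩ := hu'
  set P : ℕ := ∏ v ∈ hI.toFinset, Ideal.absNorm v.asIdeal with hP
  have hPpos : 0 < P := by
    apply Finset.prod_pos
    intro v _
    have := one_lt_absNorm v
    omega
  have hPmem : ∀ v ∈ I, ((P : ℕ) : 𝓞 K) ∈ v.asIdeal := by
    intro v hv
    obtain ⟨c, hc⟩ := Finset.dvd_prod_of_mem
      (fun v : HeightOneSpectrum (𝓞 K) => Ideal.absNorm v.asIdeal) (hI.mem_toFinset.2 hv)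
    rw [hP, hc, Nat.cast_mul]
    exact Ideal.mul_mem_right _ _ (Ideal.absNorm_mem v.asIdeal)
  have hev : ∀ v ∈ hI.toFinset, ∀ᶠ n : ℕ in Filter.atTop,
      (⟨((P ^ n : ℕ) : v.adicCompletion K), natCast_mem _ _⟩ : v.adicCompletionIntegers K) ∈ t v := by
    intro v hv
    have hv' : v ∈ I := hI.mem_toFinset.1 hv
    have hlt := norm_natCast_lt_one352 K v P (hPmem v hv')
    have htend := tendsto_pow_atTop_nhds_zero_of_norm_lt_one hlt
    have htend' : Filter.Tendsto (fun n : ℕ =>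
        (⟨((P ^ n : ℕ) : v.adicCompletion K), natCast_mem _ _⟩ : v.adicCompletionIntegers K))
        Filter.atTop (𝓝 0) := by
      rw [tendsto_subtype_rng]
      simpa using htend
    exact htend' (ht v)
  rw [← Filter.eventually_all_finset] at hev
  obtain ⟨n, hn⟩ := hev.exists
  refine ⟨P ^ n, pow_pos hPpos n, ?_⟩
  have hmem : (fun v : HeightOneSpectrum (𝓞 K) =>
      (⟨((P ^ n : ℕ) : v.adicCompletion K), natCast_mem _ _⟩ : v.adicCompletionIntegers K))
      ∈ I.pi t := fun v hv => hn v (hI.mem_toFinset.2 hv)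
  have := hsub hmem
  exact this

/-- Every neighbourhood of `0` in the finite adeles contains a positive integer. -/
theorem exists_nat_mem_nhds352 (u : Set (FiniteAdeleRing (𝓞 K) K)) (hu : u ∈ 𝓝 0) :
    ∃ N : ℕ, 0 < N ∧ ((N : ℕ) : FiniteAdeleRing (𝓞 K) K) ∈ u :=
  exists_nat_mem_nhds_aux352 K u hu

theorem tube352 {X : Type*} [TopologicalSpace X] [Ring X] [IsTopologicalRing X]
    (O : Set X) (hO : IsCompact O) (V : Set X) (hV : V ∈ 𝓝 (0 : X)) :
    ∃ u : Set X, u ∈ 𝓝 (0 : X) ∧ ∀ a ∈ u, ∀ y ∈ O, a * y ∈ V := by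
  obtain ⟨W, hWV, hWo, h0W⟩ := mem_nhds_iff.1 hV
  have hn : IsOpen ((fun p : X × X => p.1 * p.2) ⁻¹' W) := hWo.preimage continuous_mul
  have hsub : ({0} : Set X) ×ˢ O ⊆ (fun p : X × X => p.1 * p.2) ⁻¹' W := by
    rintro ⟨a, y⟩ ⟨ha, -⟩
    have ha0 : a = 0 := ha
    show a * y ∈ W
    rw [ha0, zero_mul]
    exact h0W
  obtain ⟨u, v, huo, -, hu0, hv, huv⟩ := generalized_tube_lemma isCompact_singleton hO hn hsub
  refine ⟨u, huo.mem_nhds (hu0 (Set.mem_singleton 0)), fun a ha y hy => hWV ?_⟩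
  exact huv (Set.mk_mem_prod ha (hv hy))

theorem exists_nat_mul_mem352 (V : Set (FiniteAdeleRing (𝓞 K) K)) (hV : V ∈ 𝓝 0) :
    ∃ N : ℕ, 0 < N ∧ ∀ y : FiniteAdeleRing (𝓞 K) K, y ∈ integralAdeles K →
      ((N : ℕ) : FiniteAdeleRing (𝓞 K) K) * y ∈ V := by
  obtain ⟨u, hu, huV⟩ := tube352 (integralAdeles K) (isCompact_integralAdeles K) V hV
  obtain ⟨N, hN, hNu⟩ := exists_nat_mem_nhds352 K u hu
  exact ⟨N, hN, fun y hy => huV _ hNu y hy⟩

theorem exists_ball352 (t₁ : Set ((w : InfinitePlace K) → w.Completion)) (ht₁ : t₁ ∈ 𝓝 0) :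
    ∃ ε : ℝ, 0 < ε ∧ ∀ x : (w : InfinitePlace K) → w.Completion, (∀ w, ‖x w‖ < ε) → x ∈ t₁ := by
  classical
  rw [nhds_pi, Filter.mem_pi] at ht₁
  obtain ⟨I, -, t, ht, hIt⟩ := ht₁
  have hball : ∀ w : InfinitePlace K, ∃ ε : ℝ, 0 < ε ∧ Metric.ball (0 : w.Completion) ε ⊆ t w :=
    fun w => Metric.mem_nhds_iff.1 (ht w)
  choose ε hε hεt using hball
  obtain ⟨w₀⟩ : Nonempty (InfinitePlace K) := inferInstance
  have hne : (Finset.univ : Finset (InfinitePlace K)).Nonempty := ⟨w₀, Finset.mem_univ _⟩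
  refine ⟨Finset.univ.inf' hne ε, ?_, ?_⟩
  · rw [Finset.lt_inf'_iff]
    exact fun w _ => hε w
  · intro x hx
    apply hIt
    intro w _
    apply hεt w
    rw [Metric.mem_ball, dist_zero_right]
    exact lt_of_lt_of_le (hx w) (Finset.inf'_le _ (Finset.mem_univ w))

theorem exists_box_aux352 (V : Set (InfiniteAdeleRing K × FiniteAdeleRing (𝓞 K) K))
    (hV : V ∈ 𝓝 ((0 : InfiniteAdeleRing K), (0 : FiniteAdeleRing (𝓞 K) K))) :
    ∃ (ε : ℝ) (N : ℕ), 0 < ε ∧ 0 < N ∧
      ∀ z : InfiniteAdeleRing K × FiniteAdeleRing (𝓞 K) K,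
        (∀ w : InfinitePlace K, ‖z.1 w‖ < ε) →
        (∃ y : FiniteAdeleRing (𝓞 K) K, y ∈ integralAdeles K ∧
          z.2 = ((N : ℕ) : FiniteAdeleRing (𝓞 K) K) * y) → z ∈ V := by
  obtain ⟨t₁, ht₁, t₂, ht₂, hsub⟩ := mem_nhds_prod_iff.1 hV
  obtain ⟨ε, hε, hball⟩ := exists_ball352 K t₁ ht₁
  obtain ⟨N, hN, hNV⟩ := exists_nat_mul_mem352 K t₂ ht₂
  refine ⟨ε, N, hε, hN, ?_⟩
  rintro ⟨z1, z2⟩ hz ⟨y, hy, hzy⟩
  have h1 : z1 ∈ t₁ := hball z1 hz
  have h2 : z2 ∈ t₂ := by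
    have e : z2 = ((N : ℕ) : FiniteAdeleRing (𝓞 K) K) * y := hzy
    rw [e]
    exact hNV y hy
  exact hsub (Set.mk_mem_prod h1 h2)

/-- **Boxes**: every neighbourhood of `0` in the adele ring contains a box
`{‖z_w‖ < ε, z_f ∈ N ∏ 𝒪_v}`. -/
theorem exists_box352 (V : Set (A0.Adl K)) (hV : V ∈ 𝓝 0) :
    ∃ (ε : ℝ) (N : ℕ), 0 < ε ∧ 0 < N ∧ ∀ z : A0.Adl K, (∀ w : InfinitePlace K, ‖z.1 w‖ < ε) →
      (∃ y : FiniteAdeleRing (𝓞 K) K, y ∈ integralAdeles K ∧
        z.2 = ((N : ℕ) : FiniteAdeleRing (𝓞 K) K) * y) → z ∈ V :=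
  exists_box_aux352 K V hV

/-! ## 3. The core -/

variable {K}

theorem psi_zero352 {ψ : A0.Adl K → ℂ} (hψ : IsAdeleChar ψ) : ψ 0 = 1 := by
  have := hψ.triv 0
  rwa [map_zero] at this

theorem psi_nsmul352 {ψ : A0.Adl K → ℂ} (hψ : IsAdeleChar ψ) (x : A0.Adl K) (k : ℕ) :
    ψ (k • x) = ψ x ^ k := by
  induction k with
  | zero => rw [zero_smul, pow_zero]; exact psi_zero352 hψ
  | succ k ih => rw [succ_nsmul, hψ.map_add, ih, pow_succ]

/-- **The core**: a character of `𝔸_K / K` which is trivial on a set `Z` is trivial, if for all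
`ε`, `N` there is `lam ∈ K^×` which moves the compact box `adeleBox K` into
`Z + {‖z_w‖ < ε, z_f ∈ N ∏ 𝒪_v}`. -/
theorem core352 {ψ : A0.Adl K → ℂ} (hψ : IsAdeleChar ψ) (Z : Set (A0.Adl K))
    (hZ : ∀ z₀ ∈ Z, ψ z₀ = 1)
    (hstar : ∀ (ε : ℝ) (N : ℕ), 0 < ε → 0 < N → ∃ lam : K, lam ≠ 0 ∧
      ∀ y ∈ adeleBox K, ∃ z z₀ : A0.Adl K, algebraMap K (A0.Adl K) lam * y = z + z₀ ∧ z₀ ∈ Z ∧
        (∀ w : InfinitePlace K, ‖z.1 w‖ < ε) ∧
        ∃ y' : FiniteAdeleRing (𝓞 K) K, y' ∈ integralAdeles K ∧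
          z.2 = ((N : ℕ) : FiniteAdeleRing (𝓞 K) K) * y') : False := by
  have h0 := psi_zero352 hψ
  have hV : ψ ⁻¹' Metric.ball (1 : ℂ) 1 ∈ 𝓝 (0 : A0.Adl K) := by
    apply hψ.cont.continuousAt.preimage_mem_nhds
    rw [h0]
    exact Metric.ball_mem_nhds 1 one_pos
  obtain ⟨ε, N, hε, hN, hbox⟩ := exists_box352 K _ hV
  obtain ⟨lam, hlam, hmove⟩ := hstar ε N hε hN
  have hnear : ∀ x : A0.Adl K, ‖ψ x - 1‖ < 1 := by
    intro x
    obtain ⟨η, hη⟩ := exists_sub_mem_adeleBox K (algebraMap K (A0.Adl K) lam⁻¹ * x)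
    obtain ⟨z, z₀, hzz, hz₀, hzinf, hzfin⟩ := hmove _ hη
    have hx : x = z + z₀ + algebraMap K (A0.Adl K) (lam * η) := by
      rw [← hzz, mul_sub, ← mul_assoc, ← map_mul, mul_inv_cancel₀ hlam, map_one, one_mul,
        ← map_mul]
      ring
    have hz : z ∈ ψ ⁻¹' Metric.ball (1 : ℂ) 1 := hbox z hzinf hzfin
    rw [Set.mem_preimage, Metric.mem_ball, dist_eq_norm] at hz
    rw [hx, hψ.map_add, hψ.map_add, hZ z₀ hz₀, hψ.triv, mul_one, mul_one]
    exact hz
  obtain ⟨x, hx⟩ := hψ.nontriv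
  apply hx
  apply eq_one_of_pow_near352 _ (hψ.norm_one x)
  intro k
  rw [← psi_nsmul352 hψ]
  exact hnear _

/-! ## 4. Minkowski -/

variable (K)

/-- Minkowski: a nonzero integer which is small at all infinite places but one. -/
theorem exists_small_inf352 (u : InfinitePlace K) (c : ℝ) (hc : 0 < c) :
    ∃ a : 𝓞 K, a ≠ 0 ∧ ∀ w : InfinitePlace K, w ≠ u → w (a : K) < c := by
  classical
  obtain ⟨C₀, hC₀, hM⟩ := Fermat.Agent.LT.T1.H629.exists_minkowski629 K
  set c₀ : ℝ := min 1 c with hc₀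
  have hc₀pos : 0 < c₀ := lt_min one_pos hc
  have hc₀le : c₀ ≤ 1 := min_le_left _ _
  set n : ℕ := Module.finrank ℚ K with hn
  set R : ℝ := (C₀ + 1) / c₀ ^ n with hR
  have hpow_pos : 0 < c₀ ^ n := pow_pos hc₀pos n
  have hpow_le : c₀ ^ n ≤ 1 := pow_le_one₀ hc₀pos.le hc₀le
  have hR1 : 1 ≤ R := by
    rw [hR, le_div_iff₀ hpow_pos]
    linarith
  have hRpos : 0 < R := lt_of_lt_of_le one_pos hR1
  set f : InfinitePlace K → ℝ := fun w => if w = u then R else c₀ with hf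
  have hfpos : ∀ w, 0 < f w := by
    intro w
    simp only [hf]
    split_ifs
    · exact hRpos
    · exact hc₀pos
  have hprod : C₀ * (Ideal.absNorm (⊤ : Ideal (𝓞 K)) : ℝ) < ∏ w : InfinitePlace K, f w ^ w.mult := by
    rw [Ideal.absNorm_top, Nat.cast_one, mul_one, Fintype.prod_eq_mul_prod_compl u]
    have h1 : f u ^ u.mult = R ^ u.mult := by simp [hf]
    have h2 : ∏ w ∈ ({u}ᶜ : Finset (InfinitePlace K)), f w ^ w.mult
        = c₀ ^ ∑ w ∈ ({u}ᶜ : Finset (InfinitePlace K)), w.mult := by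
      rw [← Finset.prod_pow_eq_pow_sum]
      apply Finset.prod_congr rfl
      intro w hw
      have hwu : w ≠ u := by simpa using hw
      simp [hf, hwu]
    rw [h1, h2]
    have h3 : R ≤ R ^ u.mult := le_self_pow₀ hR1 (by
      have := InfinitePlace.mult_pos (w := u); omega)
    have h4 : ∑ w ∈ ({u}ᶜ : Finset (InfinitePlace K)), w.mult ≤ n := by
      rw [hn, ← InfinitePlace.sum_mult_eq]
      exact Finset.sum_le_sum_of_subset (Finset.subset_univ _)
    have h5 : c₀ ^ n ≤ c₀ ^ ∑ w ∈ ({u}ᶜ : Finset (InfinitePlace K)), w.mult :=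
      pow_le_pow_of_le_one hc₀pos.le hc₀le h4
    have h6 : R * c₀ ^ n = C₀ + 1 := by
      rw [hR]; field_simp
    calc C₀ < C₀ + 1 := by linarith
      _ = R * c₀ ^ n := h6.symm
      _ ≤ R ^ u.mult * c₀ ^ ∑ w ∈ ({u}ᶜ : Finset (InfinitePlace K)), w.mult :=
        mul_le_mul h3 h5 hpow_pos.le (le_trans hRpos.le h3)
  obtain ⟨a, -, ha0, haw⟩ := hM ⊤ (by simp) f hfpos hprod
  refine ⟨a, ha0, fun w hw => ?_⟩
  have := haw w
  simp only [hf, if_neg hw] at this
  exact lt_of_lt_of_le this (min_le_right _ _)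

/-- A power of the prime `v₀` is principal: a nonzero integer `π` whose only prime factor is
`v₀`, with `∏_w |π|_w^{mult} ≥ 2`. -/
theorem exists_prime_power_gen352 (v₀ : HeightOneSpectrum (𝓞 K)) :
    ∃ π : 𝓞 K, π ≠ 0 ∧ (∀ v : HeightOneSpectrum (𝓞 K), v ≠ v₀ → π ∉ v.asIdeal) ∧
      (2 : ℝ) ≤ ∏ w : InfinitePlace K, w (π : K) ^ w.mult := by
  classical
  set h : ℕ := Fintype.card (ClassGroup (𝓞 K)) with hh
  have hpos : 0 < h := Fintype.card_pos
  have hI₀ : v₀.asIdeal ∈ (Ideal (𝓞 K))⁰ := mem_nonZeroDivisors_of_ne_zero v₀.ne_bot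
  have hIh : v₀.asIdeal ^ h ∈ (Ideal (𝓞 K))⁰ := pow_mem hI₀ h
  have hcl : ClassGroup.mk0 ⟨v₀.asIdeal ^ h, hIh⟩ = 1 := by
    have : (⟨v₀.asIdeal ^ h, hIh⟩ : (Ideal (𝓞 K))⁰) = ⟨v₀.asIdeal, hI₀⟩ ^ h := rfl
    rw [this, map_pow, hh]
    exact pow_card_eq_one
  rw [ClassGroup.mk0_eq_one_iff] at hcl
  obtain ⟨π, hπ⟩ := hcl.principal
  have hspan : v₀.asIdeal ^ h = Ideal.span {π} := by
    rw [hπ]
  have hπ0 : π ≠ 0 := by
    intro h0
    rw [h0, Ideal.span_singleton_eq_bot.2 rfl] at hspan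
    exact pow_ne_zero h v₀.ne_bot hspan
  refine ⟨π, hπ0, ?_, ?_⟩
  · intro v hv hmem
    have h1 : v₀.asIdeal ^ h ≤ v.asIdeal := by
      rw [hspan, Ideal.span_singleton_le_iff_mem]
      exact hmem
    have h2 : v₀.asIdeal ≤ v.asIdeal := by
      have := v.isPrime
      exact Ideal.IsPrime.le_of_pow_le h1
    have h3 : v₀.asIdeal = v.asIdeal := v₀.isMaximal.eq_of_le v.isPrime.ne_top h2
    exact hv (HeightOneSpectrum.ext h3.symm)
  · rw [InfinitePlace.prod_eq_abs_norm, ← Algebra.coe_norm_int]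
    have h1 : Ideal.absNorm (Ideal.span {π}) = Ideal.absNorm v₀.asIdeal ^ h := by
      rw [← hspan, map_pow]
    rw [Ideal.absNorm_span_singleton] at h1
    have h2 : 2 ≤ Ideal.absNorm v₀.asIdeal ^ h := by
      have := one_lt_absNorm v₀
      calc 2 ≤ Ideal.absNorm v₀.asIdeal := by omega
        _ ≤ Ideal.absNorm v₀.asIdeal ^ h := Nat.le_self_pow hpos.ne' _
    rw [← h1] at h2
    have h3 : (2 : ℤ) ≤ |(Algebra.norm ℤ) π| := by
      rw [← Int.natCast_natAbs]
      exact_mod_cast h2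
    have h4 : (2 : ℚ) ≤ |(((Algebra.norm ℤ) π : ℤ) : ℚ)| := by
      rw [← Int.cast_abs]
      exact_mod_cast h3
    exact_mod_cast h4

/-- Minkowski: a nonzero integer `a` and a power `π ^ M` of an integer whose only prime factor is
`v₀` such that `a / π ^ M` is small at all infinite places. -/
theorem exists_small_fin352 (v₀ : HeightOneSpectrum (𝓞 K)) (c : ℝ) (hc : 0 < c) :
    ∃ (a π : 𝓞 K) (M : ℕ), a ≠ 0 ∧ π ≠ 0 ∧
      (∀ v : HeightOneSpectrum (𝓞 K), v ≠ v₀ → π ∉ v.asIdeal) ∧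
      ∀ w : InfinitePlace K, w (a : K) < c * w (π : K) ^ M := by
  classical
  obtain ⟨π, hπ0, hπv, hP⟩ := exists_prime_power_gen352 K v₀
  obtain ⟨C₀, hC₀, hM⟩ := Fermat.Agent.LT.T1.H629.exists_minkowski629 K
  set P : ℝ := ∏ w : InfinitePlace K, w (π : K) ^ w.mult with hPdef
  set n : ℕ := Module.finrank ℚ K with hn
  have hcn : 0 < c ^ n := pow_pos hc n
  obtain ⟨M, hMlt⟩ := pow_unbounded_of_one_lt (C₀ / c ^ n) (by linarith : (1 : ℝ) < P)
  have hπK : (π : K) ≠ 0 := by simpa using hπ0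
  have hwpos : ∀ w : InfinitePlace K, 0 < w (π : K) := fun w => InfinitePlace.pos_iff.2 hπK
  have hprod : ∏ w : InfinitePlace K, (c * w (π : K) ^ M) ^ w.mult = c ^ n * P ^ M := by
    simp_rw [mul_pow]
    rw [Finset.prod_mul_distrib, Finset.prod_pow_eq_pow_sum, InfinitePlace.sum_mult_eq, hPdef,
      ← Finset.prod_pow]
    congr 1
    apply Finset.prod_congr rfl
    intro w _
    rw [← pow_mul, ← pow_mul, mul_comm]
  obtain ⟨a, -, ha0, haw⟩ := hM ⊤ (by simp) (fun w => c * w (π : K) ^ M)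
    (fun w => mul_pos hc (pow_pos (hwpos w) M)) (by
      rw [Ideal.absNorm_top, Nat.cast_one, mul_one, hprod]
      rw [div_lt_iff₀ hcn] at hMlt
      linarith)
  exact ⟨a, π, M, ha0, hπ0, hπv, haw⟩

/-! ## 5. The two cases -/

variable {K}

/-- The finite part of a principal adele of an integer is integral. -/
theorem algebraMap_snd_mem352 (a : 𝓞 K) (v : HeightOneSpectrum (𝓞 K)) :
    (algebraMap K (A0.Adl K) (a : K)).2 v ∈ v.adicCompletionIntegers K :=
  coe_algebraMap_mem (𝓞 K) K v a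

theorem hstar_inf352 (u : InfinitePlace K) (ε : ℝ) (N : ℕ) (hε : 0 < ε) (hN : 0 < N) :
    ∃ lam : K, lam ≠ 0 ∧
      ∀ y ∈ adeleBox K, ∃ z z₀ : A0.Adl K, algebraMap K (A0.Adl K) lam * y = z + z₀ ∧
        WL.AdlAtInf u z₀ ∧ (∀ w : InfinitePlace K, ‖z.1 w‖ < ε) ∧
        ∃ y' : FiniteAdeleRing (𝓞 K) K, y' ∈ integralAdeles K ∧
          z.2 = ((N : ℕ) : FiniteAdeleRing (𝓞 K) K) * y' := by
  classical
  have hB := infBound_nonneg K
  have hNpos : (0 : ℝ) < N := by exact_mod_cast hN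
  set c : ℝ := ε / (N * (infBound K + 1)) with hc
  have hcpos : 0 < c := div_pos hε (mul_pos hNpos (by linarith))
  obtain ⟨a, ha0, haw⟩ := exists_small_inf352 K u c hcpos
  have haK : (a : K) ≠ 0 := by simpa using ha0
  have hNK : ((N : ℕ) : K) ≠ 0 := by exact_mod_cast hN.ne'
  refine ⟨(N : K) * (a : K), mul_ne_zero hNK haK, ?_⟩
  intro y hy
  set x : A0.Adl K := algebraMap K (A0.Adl K) ((N : K) * (a : K)) * y with hx
  set p : (w : InfinitePlace K) → w.Completion := fun w => x.1 w with hp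
  set z₀ : A0.Adl K := ((Pi.single u (p u) : (w : InfinitePlace K) → w.Completion), 0) with hz₀
  have hz₀1 : ∀ w, z₀.1 w = (Pi.single u (p u) : (w : InfinitePlace K) → w.Completion) w :=
    fun w => rfl
  refine ⟨x - z₀, z₀, (sub_add_cancel x z₀).symm, ?_, ?_, ?_⟩
  · refine ⟨fun w hw => ?_, fun v => rfl⟩
    rw [hz₀1]
    exact Pi.single_eq_of_ne hw _
  · intro w
    have e0 : (x - z₀).1 w = x.1 w - z₀.1 w := rfl
    rw [e0, hz₀1]
    by_cases hw : w = u
    · subst hw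
      rw [Pi.single_eq_same]
      have : x.1 w - p w = 0 := sub_self _
      rw [this, norm_zero]
      exact hε
    · rw [Pi.single_eq_of_ne hw, sub_zero]
      have e1 : x.1 w = (algebraMap K (A0.Adl K) ((N : K) * (a : K))).1 w * y.1 w := rfl
      rw [e1, norm_mul, Fermat.Agent.LT.T1.H629.norm_algebraMap_fst629, map_mul]
      have h1 : w ((N : ℕ) : K) = (N : ℝ) := by simp
      rw [h1]
      have h2 : ‖y.1 w‖ ≤ infBound K := hy.1 w
      have h3 : w (a : K) < c := haw w hw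
      have h4 : 0 ≤ w (a : K) := apply_nonneg _ _
      have h5 : (N : ℝ) * c * (infBound K + 1) = ε := by
        rw [hc]; field_simp
      calc (N : ℝ) * w (a : K) * ‖y.1 w‖ ≤ (N : ℝ) * w (a : K) * infBound K :=
            mul_le_mul_of_nonneg_left h2 (mul_nonneg hNpos.le h4)
        _ ≤ (N : ℝ) * c * infBound K :=
            mul_le_mul_of_nonneg_right (mul_le_mul_of_nonneg_left h3.le hNpos.le) hB
        _ < (N : ℝ) * c * (infBound K + 1) := by
            have : 0 < (N : ℝ) * c := mul_pos hNpos hcpos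
            nlinarith
        _ = ε := h5
  · refine ⟨(algebraMap K (A0.Adl K) (a : K)).2 * y.2, ?_, ?_⟩
    · intro v
      exact mul_mem (algebraMap_snd_mem352 a v) (hy.2 v)
    · have e0 : (x - z₀).2 = x.2 - z₀.2 := rfl
      have e1 : z₀.2 = 0 := rfl
      rw [e0, e1, sub_zero, hx, map_mul, map_natCast, mul_assoc]
      rfl

/-- **The component at an infinite place** of a nontrivial character of `𝔸_K / K` is
nontrivial. -/
theorem locNontriv_inf352 {ψ : A0.Adl K → ℂ} (hψ : IsAdeleChar ψ) (u : InfinitePlace K) :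
    ∃ x : A0.Adl K, WL.AdlAtInf u x ∧ ψ x ≠ 1 := by
  by_contra hcon
  push Not at hcon
  exact core352 hψ {x | WL.AdlAtInf u x} (fun z₀ hz₀ => hcon z₀ hz₀)
    (fun ε N hε hN => hstar_inf352 u ε N hε hN)

/-- `a / π ^ M` is integral at the places where `π` is a unit. -/
theorem valued_div_pow_le_one352 (a π : 𝓞 K) (M : ℕ) (v : HeightOneSpectrum (𝓞 K))
    (hπ : π ∉ v.asIdeal) :
    Valued.v (algebraMap K (v.adicCompletion K) ((a : K) / (π : K) ^ M)) ≤ 1 := by
  rw [Fermat.Agent.LT.H767.valued_algebraMap, map_div₀, map_pow, valuation_of_algebraMap,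
    valuation_of_algebraMap, intValuation_eq_one_iff.2 hπ, one_pow, div_one]
  exact intValuation_le_one v a

theorem hstar_fin352 (v₀ : HeightOneSpectrum (𝓞 K)) (ε : ℝ) (N : ℕ) (hε : 0 < ε) (hN : 0 < N) :
    ∃ lam : K, lam ≠ 0 ∧
      ∀ y ∈ adeleBox K, ∃ z z₀ : A0.Adl K, algebraMap K (A0.Adl K) lam * y = z + z₀ ∧
        WL.AdlAtFin v₀ z₀ ∧ (∀ w : InfinitePlace K, ‖z.1 w‖ < ε) ∧
        ∃ y' : FiniteAdeleRing (𝓞 K) K, y' ∈ integralAdeles K ∧
          z.2 = ((N : ℕ) : FiniteAdeleRing (𝓞 K) K) * y' := by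
  classical
  have hB := infBound_nonneg K
  have hNpos : (0 : ℝ) < N := by exact_mod_cast hN
  set c : ℝ := ε / (N * (infBound K + 1)) with hc
  have hcpos : 0 < c := div_pos hε (mul_pos hNpos (by linarith))
  obtain ⟨a, π, M, ha0, hπ0, hπv, haw⟩ := exists_small_fin352 K v₀ c hcpos
  have haK : (a : K) ≠ 0 := by simpa using ha0
  have hπK : (π : K) ≠ 0 := by simpa using hπ0
  have hNK : ((N : ℕ) : K) ≠ 0 := by exact_mod_cast hN.ne'
  set q : K := (a : K) / (π : K) ^ M with hq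
  have hq0 : q ≠ 0 := div_ne_zero haK (pow_ne_zero M hπK)
  refine ⟨(N : K) * q, mul_ne_zero hNK hq0, ?_⟩
  intro y hy
  set x : A0.Adl K := algebraMap K (A0.Adl K) ((N : K) * q) * y with hx
  have hint : ∀ v : HeightOneSpectrum (𝓞 K),
      (if v = v₀ then (0 : v.adicCompletion K)
        else algebraMap K (v.adicCompletion K) q * y.2 v) ∈ v.adicCompletionIntegers K := by
    intro v
    split_ifs with hv
    · exact zero_mem _
    · refine mul_mem ?_ (hy.2 v)
      rw [mem_adicCompletionIntegers]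
      exact valued_div_pow_le_one352 a π M v (hπv v hv)
  set y' : FiniteAdeleRing (𝓞 K) K :=
    ⟨fun v => if v = v₀ then (0 : v.adicCompletion K)
      else algebraMap K (v.adicCompletion K) q * y.2 v, Filter.Eventually.of_forall hint⟩ with hy'
  set z : A0.Adl K := (x.1, ((N : ℕ) : FiniteAdeleRing (𝓞 K) K) * y') with hz
  refine ⟨z, x - z, (add_sub_cancel z x).symm, ?_, ?_, ?_⟩
  · refine ⟨fun w => ?_, fun v hv => ?_⟩
    · have e0 : (x - z).1 w = x.1 w - z.1 w := rfl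
      have e1 : z.1 w = x.1 w := rfl
      rw [e0, e1, sub_self]
    · have e0 : (x - z).2 v = x.2 v - z.2 v := rfl
      have e1a : z.2 v = ((N : ℕ) : v.adicCompletion K) *
          (if v = v₀ then (0 : v.adicCompletion K)
            else algebraMap K (v.adicCompletion K) q * y.2 v) := rfl
      have e1 : z.2 v = ((N : ℕ) : v.adicCompletion K) *
          (algebraMap K (v.adicCompletion K) q * y.2 v) :=
        e1a.trans (congrArg (fun t => ((N : ℕ) : v.adicCompletion K) * t) (if_neg hv))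
      have e2 : x.2 v = algebraMap K (v.adicCompletion K) ((N : K) * q) * y.2 v := rfl
      rw [e0, e1, e2, map_mul, map_natCast, mul_assoc, sub_self]
  · intro w
    have e1 : z.1 w = (algebraMap K (A0.Adl K) ((N : K) * q)).1 w * y.1 w := rfl
    rw [e1, norm_mul, Fermat.Agent.LT.T1.H629.norm_algebraMap_fst629, map_mul, hq, map_div₀,
      map_pow]
    have h1 : w ((N : ℕ) : K) = (N : ℝ) := by simp
    rw [h1]
    have h2 : ‖y.1 w‖ ≤ infBound K := hy.1 w
    have hπw : 0 < w (π : K) ^ M := pow_pos (InfinitePlace.pos_iff.2 hπK) M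
    have h3 : w (a : K) / w (π : K) ^ M < c := by
      rw [div_lt_iff₀ hπw]
      exact haw w
    have h4 : 0 ≤ w (a : K) / w (π : K) ^ M := div_nonneg (apply_nonneg _ _) hπw.le
    have h5 : (N : ℝ) * c * (infBound K + 1) = ε := by
      rw [hc]; field_simp
    calc (N : ℝ) * (w (a : K) / w (π : K) ^ M) * ‖y.1 w‖
        ≤ (N : ℝ) * (w (a : K) / w (π : K) ^ M) * infBound K :=
          mul_le_mul_of_nonneg_left h2 (mul_nonneg hNpos.le h4)
      _ ≤ (N : ℝ) * c * infBound K :=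
          mul_le_mul_of_nonneg_right (mul_le_mul_of_nonneg_left h3.le hNpos.le) hB
      _ < (N : ℝ) * c * (infBound K + 1) := by
          have : 0 < (N : ℝ) * c := mul_pos hNpos hcpos
          nlinarith
      _ = ε := h5
  · exact ⟨y', hint, rfl⟩

/-- **The component at a finite place** of a nontrivial character of `𝔸_K / K` is
nontrivial. -/
theorem locNontriv_fin352 {ψ : A0.Adl K → ℂ} (hψ : IsAdeleChar ψ)
    (v : HeightOneSpectrum (𝓞 K)) : ∃ x : A0.Adl K, WL.AdlAtFin v x ∧ ψ x ≠ 1 := by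
  by_contra hcon
  push Not at hcon
  exact core352 hψ {x | WL.AdlAtFin v x} (fun z₀ hz₀ => hcon z₀ hz₀)
    (fun ε N hε hN => hstar_fin352 v ε N hε hN)

end Fermat.Agent.LT.A2.H352

end
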