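import Fermat.Agent.LT.A2.Kernel

/-!
# Row LT, tower A2, leaf A2.10 `InvC` (helper352)

OFF-MAIN.  Right invariance of the theta lift under the level group, the positive real scalars and
the maximal compact subgroups at the infinite places, from `KData.IsRightInv`:

* the torus `T(𝔸_K)` (matrices `a + b M_ω`) is closed under products and inverses, hence
  `GL₂(𝔸_K)⁺` is stable under right multiplication by any `u` with an admissible partner `κ`;
* for `g ∈ GL₂(𝔸_K)⁺` the integrands of the two lift formulas agree on `DT`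
  (`F (g u) (m m_g κ) = F g (m m_g)`, `χT (m m_g κ) = χT (m m_g)`);
* `GL₂(K)`-invariance and the vanishing off `GL₂(K) GL₂(𝔸_K)⁺` give the rest.

Result: `Fermat.Agent.LT.A2.H352.invC352 : Fermat.Agent.LT.A2.InvC`.
-/

set_option autoImplicit false

open IsDedekindDomain NumberField AutomorphicForm MeasureTheory
open scoped MatrixGroups

noncomputable section

namespace Fermat.Agent.LT.A2.H352

open Fermat.Agent.LT.H130 Fermat.Agent.LT.H556 Fermat.Agent.LT.A2

/-- The product of two torus matrices is a torus matrix. -/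
theorem torMat_mul352 {R : Type*} [CommRing R] (t n a b a' b' : R) :
    torMat t n a b * torMat t n a' b'
      = torMat t n (a * a' - n * b * b') (a * b' + b * a' + t * b * b') := by
  unfold torMat
  ext i j
  fin_cases i <;> fin_cases j <;>
    simp [Matrix.mul_apply, Fin.sum_univ_two] <;> ring

/-- `torMat t n 1 0 = 1`. -/
theorem torMat_one352 {R : Type*} [CommRing R] (t n : R) :
    torMat t n 1 0 = (1 : Matrix (Fin 2) (Fin 2) R) := by
  unfold torMat
  ext i j
  fin_cases i <;> fin_cases j <;> simp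

/-- The determinant of a torus matrix is the norm form. -/
theorem torMat_det352 {R : Type*} [CommRing R] (t n a b : R) :
    (torMat t n a b).det = a * a + t * a * b + n * b * b := by
  unfold torMat
  rw [Matrix.det_fin_two]
  simp
  ring

variable {K : Type} [Field K] [NumberField K]

/-- `T(𝔸_K)` is closed under products. -/
theorem inTorus_mul352 (t n : K) {m m' : A0.G K} (h : InTorus t n m) (h' : InTorus t n m') :
    InTorus t n (m * m') := by
  obtain ⟨a, b, hm⟩ := h
  obtain ⟨a', b', hm'⟩ := h'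
  refine ⟨a * a' - algebraMap K (A0.Adl K) n * b * b',
    a * b' + b * a' + algebraMap K (A0.Adl K) t * b * b', ?_⟩
  rw [Units.val_mul, hm, hm', torMat_mul352]

/-- `T(𝔸_K)` is closed under inverses. -/
theorem inTorus_inv352 (t n : K) {m : A0.G K} (h : InTorus t n m) : InTorus t n m⁻¹ := by
  obtain ⟨a, b, hm⟩ := h
  set T : A0.Adl K := algebraMap K (A0.Adl K) t with hT
  set N : A0.Adl K := algebraMap K (A0.Adl K) n with hN
  -- the determinant is a unit
  have hdet : ((Matrix.GeneralLinearGroup.det m : (A0.Adl K)ˣ) : A0.Adl K)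
      = a * a + T * a * b + N * b * b := by
    rw [Matrix.GeneralLinearGroup.val_det_apply, hm, torMat_det352]
  set δ : (A0.Adl K)ˣ := Matrix.GeneralLinearGroup.det m with hδ
  have hδ1 : (a * a + T * a * b + N * b * b) * ((δ⁻¹ : (A0.Adl K)ˣ) : A0.Adl K) = 1 := by
    rw [← hdet]; exact Units.mul_inv δ
  refine ⟨(a + T * b) * ((δ⁻¹ : (A0.Adl K)ˣ) : A0.Adl K),
    -b * ((δ⁻¹ : (A0.Adl K)ˣ) : A0.Adl K), ?_⟩
  have hmul : (m : Matrix (Fin 2) (Fin 2) (A0.Adl K))
      * torMat T N ((a + T * b) * ((δ⁻¹ : (A0.Adl K)ˣ) : A0.Adl K))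
          (-b * ((δ⁻¹ : (A0.Adl K)ˣ) : A0.Adl K)) = 1 := by
    rw [hm, torMat_mul352, ← torMat_one352 T N]
    congr 1
    · linear_combination hδ1
    · ring
  exact Units.inv_eq_of_mul_eq_one_right hmul

/-- Congruence of the torus integral on a Borel set. -/
theorem intT_congr352 (D : KData K) {S : Set (A0.G K)}
    (hS : @MeasurableSet (A0.G K) (borel (A0.G K)) S) {f g : A0.G K → ℂ}
    (h : ∀ m ∈ S, f m = g m) : D.intT S f = D.intT S g := by
  unfold KData.intT
  let _ : MeasurableSpace (A0.G K) := borel (A0.G K)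
  exact setIntegral_congr_fun hS h

/-- **The mechanism of `InvC`**: if `u` has an admissible partner `κ` with `χT κ = 1` and
`F (g u) (m κ) = F g m`, then the lift is right invariant under `u`. -/
theorem lift_rightInv352 (D : KData K) (hG : D.Good) (φ : A0.G K → ℂ) (hφ : D.IsLift φ)
    (u κ : A0.G K) (hadm : Adm D.t D.n u κ) (hχ : D.χT κ = 1)
    (hF : ∀ (g m : A0.G K) (ξ : A0.Adl K × A0.Adl K), Adm D.t D.n g m →
        D.F (g * u) (m * κ) ξ = D.F g m ξ) (g : A0.G K) : φ (g * u) = φ g := by
  by_cases hex : ∃ γ : GL (Fin 2) K, InGPlus D.t D.n (ratG γ * g)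
  · obtain ⟨γ, mg, hmg⟩ := hex
    have h1 : φ (g * u) = φ (ratG γ * g * u) := by
      rw [mul_assoc, hφ.left_inv]
    have h2 : φ g = φ (ratG γ * g) := (hφ.left_inv γ g).symm
    rw [h1, h2]
    have hadm' : Adm D.t D.n (ratG γ * g * u) (mg * κ) := by
      refine ⟨inTorus_mul352 _ _ hmg.1 hadm.1, ?_⟩
      calc Matrix.GeneralLinearGroup.det (ratG γ * g * u)
          = Matrix.GeneralLinearGroup.det (ratG γ * g) * Matrix.GeneralLinearGroup.det u :=
            map_mul _ _ _
        _ = Matrix.GeneralLinearGroup.det mg * Matrix.GeneralLinearGroup.det κ := by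
            rw [hmg.2, hadm.2]
        _ = Matrix.GeneralLinearGroup.det (mg * κ) := (map_mul _ _ _).symm
    rw [hφ.formula _ _ hadm', hφ.formula _ _ hmg]
    apply intT_congr352 D hG.measured.dom_meas
    intro m hm
    have hm1 := hG.measured.dom_sub m hm
    have hadm_m : Adm D.t D.n (ratG γ * g) (m * mg) := by
      refine ⟨inTorus_mul352 _ _ hm1.1 hmg.1, ?_⟩
      calc Matrix.GeneralLinearGroup.det (ratG γ * g)
          = Matrix.GeneralLinearGroup.det mg := hmg.2
        _ = Matrix.GeneralLinearGroup.det m * Matrix.GeneralLinearGroup.det mg := by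
            rw [hm1.2, one_mul]
        _ = Matrix.GeneralLinearGroup.det (m * mg) := (map_mul _ _ _).symm
    have e1 : D.theta (ratG γ * g * u) (m * (mg * κ)) = D.theta (ratG γ * g) (m * mg) := by
      unfold KData.theta
      refine tsum_congr fun ξ => ?_
      rw [← mul_assoc]
      exact hF (ratG γ * g) (m * mg) _ hadm_m
    have e2 : D.χT (m * (mg * κ)) = D.χT (m * mg) := by
      rw [← mul_assoc, hG.torus.mul _ _ hadm_m.1 hadm.1, hχ, mul_one]
    rw [e1, e2]
  · have h0 : φ g = 0 := hφ.off g (fun γ h => hex ⟨γ, h⟩)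
    rw [h0]
    apply hφ.off
    intro γ hplus
    apply hex
    obtain ⟨m', hm'⟩ := hplus
    refine ⟨γ, m' * κ⁻¹, inTorus_mul352 _ _ hm'.1 (inTorus_inv352 _ _ hadm.1), ?_⟩
    have h3 : Matrix.GeneralLinearGroup.det (ratG γ * (g * u))
        = Matrix.GeneralLinearGroup.det m' := hm'.2
    have h4 : Matrix.GeneralLinearGroup.det (ratG γ * g) * Matrix.GeneralLinearGroup.det u
        = Matrix.GeneralLinearGroup.det m' := by
      rw [← map_mul, mul_assoc]
      exact h3
    calc Matrix.GeneralLinearGroup.det (ratG γ * g)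
        = Matrix.GeneralLinearGroup.det (ratG γ * g) * Matrix.GeneralLinearGroup.det u
            * (Matrix.GeneralLinearGroup.det u)⁻¹ := by
          rw [mul_assoc, mul_inv_cancel, mul_one]
      _ = Matrix.GeneralLinearGroup.det m' * (Matrix.GeneralLinearGroup.det κ)⁻¹ := by
          rw [h4, hadm.2]
      _ = Matrix.GeneralLinearGroup.det (m' * κ⁻¹) := by
          rw [map_mul, map_inv]

/-- **Leaf A2.10 `InvC`.** -/
theorem invC352 : InvC := by
  intro K _ _ D hG φ hφ
  refine ⟨?_, ?_, ?_⟩
  · intro u hu g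
    obtain ⟨κ, hadm, hχ, hF⟩ := hG.right_inv.level u hu
    exact lift_rightInv352 D hG φ hφ u κ hadm hχ hF g
  · intro w z hz g
    obtain ⟨κ, hadm, hχ, hF⟩ := hG.right_inv.arch_scalar w z hz
    exact lift_rightInv352 D hG φ hφ z κ hadm hχ hF g
  · intro w k hk g
    obtain ⟨κ, hadm, hχ, hF⟩ := hG.right_inv.arch_compact w k hk
    exact lift_rightInv352 D hG φ hφ k κ hadm hχ hF g

end Fermat.Agent.LT.A2.H352

end
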